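/-
Programme JAC, cross-package algebra brick G1 (helper69).

**The tensor product of two domains over an algebraically closed field is a domain.**

`isDomain_tensorProduct : IsDomain (A ⊗[k] B)` for `k` algebraically closed and `A`, `B` commutative
`k`-algebras that are domains (no finiteness hypotheses).  Corollaries: `K ⊗[k] A` is a domain for
every field extension `K` of `k` ("integral over an algebraically closed field implies geometrically
integral").

Proof: reduce to `A` of finite type (everything is flat over a field); then for `x y = 0` with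
`x, y ≠ 0` pick nonzero coordinates `a`, `a'` of `x`, `y` with respect to the `A`-basis `1 ⊗ e_i` of
`A ⊗ B`, a maximal ideal `m ∌ a a'` (Jacobson), `A / m = k` (Nullstellensatz), and specialise along
`A → k`: the images of `x`, `y` in `B` are nonzero with product zero.
-/
import Mathlib

set_option autoImplicit false
set_option linter.style.haveILetI false

open TensorProduct

namespace Fermat.Agent.JAC.Alg.TensorDomain69

universe u v w

section Eval

variable {k : Type u} {A : Type v} {B : Type w} [Field k] [CommRing A] [CommRing B]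
  [Algebra k A] [Algebra k B]

/-- Specialisation `A ⊗[k] B → B` along a `k`-point `φ : A → k`. -/
noncomputable def evalMap (φ : A →ₐ[k] k) : A ⊗[k] B →ₐ[k] B :=
  Algebra.TensorProduct.productMap ((Algebra.ofId k B).comp φ) (AlgHom.id k B)

lemma evalMap_tmul (φ : A →ₐ[k] k) (a : A) (b : B) :
    evalMap φ (a ⊗ₜ[k] b) = φ a • b := by
  rw [evalMap, Algebra.TensorProduct.productMap_apply_tmul, Algebra.smul_def]
  rfl

/-- Coordinates of the specialisation are the specialisations of the coordinates. -/
lemma repr_evalMap {ι : Type*} (e : Module.Basis ι k B) (φ : A →ₐ[k] k) (z : A ⊗[k] B) (i : ι) :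
    e.repr (evalMap φ z) i = φ ((Algebra.TensorProduct.basis A e).repr z i) := by
  induction z using TensorProduct.induction_on with
  | zero => simp
  | tmul a b =>
    rw [evalMap_tmul, Algebra.TensorProduct.basis_repr_tmul, map_smul, Finsupp.smul_apply,
      Finsupp.smul_apply, Finsupp.mapRange_apply, smul_eq_mul, smul_eq_mul, map_mul,
      AlgHom.commutes]
    rfl
  | add x y hx hy =>
    rw [map_add, map_add, map_add, Finsupp.add_apply, Finsupp.add_apply, map_add, hx, hy]

end Eval

section FiniteType

variable {k : Type u} {A : Type v} {B : Type w} [Field k] [IsAlgClosed k] [CommRing A] [CommRing B]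
  [Algebra k A] [Algebra k B]

/-- A finite type domain over an algebraically closed field has a `k`-point off any given nonzero
element. -/
theorem exists_algHom_apply_ne_zero [IsDomain A] [Algebra.FiniteType k A] {f : A} (hf : f ≠ 0) :
    ∃ φ : A →ₐ[k] k, φ f ≠ 0 := by
  haveI : IsJacobsonRing A := isJacobsonRing_of_finiteType (A := k) (B := A)
  obtain ⟨m, hm, hfm⟩ : ∃ m : Ideal A, m.IsMaximal ∧ f ∉ m := by
    by_contra h
    push Not at h
    have h1 : f ∈ Ideal.jacobson (⊥ : Ideal A) := by
      rw [Ideal.jacobson, Ideal.mem_sInf]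
      intro J hJ
      exact h J hJ.2
    have hrad : (⊥ : Ideal A).IsRadical := by
      rw [← Ideal.radical_eq_iff]
      exact (Ideal.radical_eq_iff.mpr (Ideal.isRadical_bot))
    rw [IsJacobsonRing.out inferInstance hrad] at h1
    exact hf (by simpa using h1)
  letI := Ideal.Quotient.field m
  haveI : Algebra.FiniteType k (A ⧸ m) := Algebra.FiniteType.of_surjective
    (Ideal.Quotient.mkₐ k m) (Ideal.Quotient.mkₐ_surjective k m)
  haveI : Module.Finite k (A ⧸ m) := finite_of_finite_type_of_isJacobsonRing k (A ⧸ m)
  have hbij : Function.Bijective (algebraMap k (A ⧸ m)) :=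
    IsAlgClosed.algebraMap_bijective_of_isIntegral
  let ψ : (A ⧸ m) ≃ₐ[k] k := (AlgEquiv.ofBijective (Algebra.ofId k (A ⧸ m)) hbij).symm
  refine ⟨(ψ : (A ⧸ m) →ₐ[k] k).comp (Ideal.Quotient.mkₐ k m), ?_⟩
  intro h0
  apply hfm
  rw [AlgHom.comp_apply] at h0
  have : (Ideal.Quotient.mkₐ k m) f = 0 := by
    have := ψ.injective (a₁ := (Ideal.Quotient.mkₐ k m) f) (a₂ := 0) (by simpa using h0)
    exact this
  exact Ideal.Quotient.eq_zero_iff_mem.mp this

/-- The finite type case. -/
theorem noZeroDivisors_of_finiteType [IsDomain A] [IsDomain B] [Algebra.FiniteType k A] :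
    NoZeroDivisors (A ⊗[k] B) := by
  refine ⟨fun {x y} hxy => ?_⟩
  by_contra hcon
  push Not at hcon
  obtain ⟨hx, hy⟩ := hcon
  let e := Module.Free.chooseBasis k B
  let bA := Algebra.TensorProduct.basis A e
  obtain ⟨i, hi⟩ : ∃ i, bA.repr x i ≠ 0 := by
    by_contra h
    push Not at h
    apply hx
    apply bA.repr.injective
    ext i
    simp [h i]
  obtain ⟨j, hj⟩ : ∃ j, bA.repr y j ≠ 0 := by
    by_contra h
    push Not at h
    apply hy
    apply bA.repr.injective
    ext j
    simp [h j]
  obtain ⟨φ, hφ⟩ := exists_algHom_apply_ne_zero (k := k) (mul_ne_zero hi hj)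
  rw [map_mul] at hφ
  have hx' : evalMap (B := B) φ x ≠ 0 := by
    intro h0
    have := repr_evalMap e φ x i
    rw [h0, map_zero, Finsupp.zero_apply] at this
    exact hφ (by rw [← this, zero_mul])
  have hy' : evalMap (B := B) φ y ≠ 0 := by
    intro h0
    have := repr_evalMap e φ y j
    rw [h0, map_zero, Finsupp.zero_apply] at this
    exact hφ (by rw [← this, mul_zero])
  have h0 : evalMap (B := B) φ x * evalMap (B := B) φ y = 0 := by
    rw [← map_mul, hxy, map_zero]
  exact (mul_ne_zero hx' hy') h0

end FiniteType

section General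

variable {k : Type u} {A : Type v} {B : Type w} [Field k] [CommRing A] [CommRing B]
  [Algebra k A] [Algebra k B]

/-- Every element of `A ⊗[k] B` comes from `A₀ ⊗[k] B` for every subalgebra `A₀` containing a
suitable finite set. -/
lemma exists_finset_mem_range (x : A ⊗[k] B) :
    ∃ s : Finset A, ∀ A₀ : Subalgebra k A, (↑s : Set A) ⊆ A₀ →
      x ∈ (Algebra.TensorProduct.map A₀.val (AlgHom.id k B)).range := by
  classical
  obtain ⟨S, hS⟩ := TensorProduct.exists_finset x
  refine ⟨S.image Prod.fst, fun A₀ hA₀ => ?_⟩
  rw [hS]
  refine Subalgebra.sum_mem _ fun i hi => ?_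
  have hi1 : i.1 ∈ A₀ := hA₀ (by
    rw [Finset.coe_image]
    exact ⟨i, hi, rfl⟩)
  exact ⟨(⟨i.1, hi1⟩ : A₀) ⊗ₜ[k] i.2, by simp⟩

lemma map_val_injective (A₀ : Subalgebra k A) :
    Function.Injective (Algebra.TensorProduct.map A₀.val (AlgHom.id k B)) := by
  have h1 : Function.Injective (LinearMap.rTensor B A₀.val.toLinearMap) :=
    Module.Flat.rTensor_preserves_injective_linearMap _ Subtype.val_injective
  have h2 : ∀ z, Algebra.TensorProduct.map A₀.val (AlgHom.id k B) z =
      LinearMap.rTensor B A₀.val.toLinearMap z := by
    intro z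
    induction z using TensorProduct.induction_on with
    | zero => simp
    | tmul a b => simp
    | add x y hx hy => rw [map_add, map_add, hx, hy]
  intro z w hzw
  apply h1
  rw [← h2, ← h2, hzw]

variable [IsAlgClosed k]

/-- **The tensor product of two domains over an algebraically closed field has no zero divisors.** -/
theorem noZeroDivisors_tensorProduct [IsDomain A] [IsDomain B] : NoZeroDivisors (A ⊗[k] B) := by
  classical
  refine ⟨fun {x y} hxy => ?_⟩
  obtain ⟨s, hs⟩ := exists_finset_mem_range x
  obtain ⟨t, ht⟩ := exists_finset_mem_range y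
  let A₀ : Subalgebra k A := Algebra.adjoin k (↑(s ∪ t) : Set A)
  have hsA : (↑s : Set A) ⊆ A₀ := fun a ha =>
    Algebra.subset_adjoin (by
      rw [Finset.coe_union]
      exact Or.inl ha)
  have htA : (↑t : Set A) ⊆ A₀ := fun a ha =>
    Algebra.subset_adjoin (by
      rw [Finset.coe_union]
      exact Or.inr ha)
  obtain ⟨x₀, rfl⟩ := hs A₀ hsA
  obtain ⟨y₀, rfl⟩ := ht A₀ htA
  haveI : Algebra.FiniteType k A₀ :=
    (Subalgebra.fg_iff_finiteType _).mp (Subalgebra.fg_adjoin_finset _)
  haveI := noZeroDivisors_of_finiteType (k := k) (A := A₀) (B := B)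
  have hinj := map_val_injective (k := k) (B := B) A₀
  have h0 : x₀ * y₀ = 0 := by
    apply hinj
    rw [map_mul, map_zero]
    exact hxy
  rcases mul_eq_zero.mp h0 with h | h
  · left
    change (Algebra.TensorProduct.map A₀.val (AlgHom.id k B)) x₀ = 0
    rw [h, map_zero]
  · right
    change (Algebra.TensorProduct.map A₀.val (AlgHom.id k B)) y₀ = 0
    rw [h, map_zero]

/-- **The tensor product of two domains over an algebraically closed field is a domain.** -/
theorem isDomain_tensorProduct (k : Type u) (A : Type v) (B : Type w) [Field k] [IsAlgClosed k]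
    [CommRing A] [CommRing B] [Algebra k A] [Algebra k B] [IsDomain A] [IsDomain B] :
    IsDomain (A ⊗[k] B) := by
  haveI := noZeroDivisors_tensorProduct (k := k) (A := A) (B := B)
  haveI : Nontrivial (A ⊗[k] B) :=
    Algebra.TensorProduct.nontrivial_of_algebraMap_injective_of_isDomain k A B
      (algebraMap k A).injective (algebraMap k B).injective
  exact NoZeroDivisors.to_isDomain _

/-- Base change of a domain over an algebraically closed field to any field extension (on the
left, the JAC convention `K ⊗[k] A`) is a domain. -/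
theorem isDomain_baseChange (k : Type u) (K : Type v) (A : Type w) [Field k] [IsAlgClosed k]
    [Field K] [Algebra k K] [CommRing A] [Algebra k A] [IsDomain A] : IsDomain (K ⊗[k] A) :=
  isDomain_tensorProduct k K A

end General

end Fermat.Agent.JAC.Alg.TensorDomain69
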