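/-
Programme JAC, cross-package algebra brick G3 (helper69).

**Descent of the Dedekind property along an integral extension with a linear retraction**, and the
application: for `k` algebraically closed, `A` a domain standard smooth of relative dimension one
over `k` and `K` ANY field extension of `k`, the base change `K ⊗[k] A` is a Dedekind domain
(`isDedekindDomain_baseChange`).  For algebraically closed `K` this is helper37's
`SmoothAlg37.isDedekindDomain_of_isStandardSmoothOfRelativeDimension_one` (plus `TensorDomain69`);
the general case descends from the algebraic closure of `K`.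
-/
import Mathlib
import Fermat.Agent.JAC.Alg.TensorDomain69
import Fermat.Agent.JAC.B2.SmoothAlg37

set_option autoImplicit false
set_option linter.style.haveILetI false

open TensorProduct

namespace Fermat.Agent.JAC.Alg.DedekindDescent69

section Descent

variable {R R' : Type*} [CommRing R] [CommRing R']

/-- A retraction `ρ` of `ι`, linear over `R`, makes `ι` injective. -/
lemma injective_of_retraction (ι : R →+* R') (ρ : R' → R) (hρ : ∀ r z, ρ (ι r * z) = r * ρ z)
    (hρ1 : ρ 1 = 1) : Function.Injective ι := by
  intro a b hab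
  have ha : ρ (ι a) = a := by simpa [hρ1] using hρ a 1
  have hb : ρ (ι b) = b := by simpa [hρ1] using hρ b 1
  rw [← ha, ← hb, hab]

/-- Dimension `≤ 1` descends along an injective integral ring homomorphism into a domain. -/
theorem dimensionLEOne_of_isIntegral [IsDomain R'] [Ring.DimensionLEOne R'] (ι : R →+* R')
    (hinj : Function.Injective ι) (hint : ι.IsIntegral) : Ring.DimensionLEOne R := by
  letI : Algebra R R' := ι.toAlgebra
  haveI : Algebra.IsIntegral R R' := ⟨hint⟩
  refine ⟨fun {p} hp0 hp => ?_⟩
  haveI := hp
  obtain ⟨Q, -, hQ, hQp⟩ := Ideal.exists_ideal_over_prime_of_isIntegral p (⊥ : Ideal R') (by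
    rw [← RingHom.ker_eq_comap_bot]
    have : RingHom.ker (algebraMap R R') = ⊥ := (RingHom.injective_iff_ker_eq_bot _).mp hinj
    rw [this]
    exact bot_le)
  have hQ0 : Q ≠ ⊥ := by
    rintro rfl
    apply hp0
    rw [← hQp, ← RingHom.ker_eq_comap_bot]
    exact (RingHom.injective_iff_ker_eq_bot _).mp hinj
  haveI : Q.IsMaximal := hQ.isMaximal hQ0
  rw [← hQp]
  exact Ideal.isMaximal_comap_of_isIntegral_of_isMaximal (R := R) Q

/-- Integral closedness descends along a ring homomorphism with an `R`-linear retraction. -/
theorem isIntegrallyClosed_of_retraction [IsDomain R] [IsDomain R'] [IsIntegrallyClosed R']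
    (ι : R →+* R') (ρ : R' → R) (hρ : ∀ r z, ρ (ι r * z) = r * ρ z) (hρ1 : ρ 1 = 1) :
    IsIntegrallyClosed R := by
  have hinj := injective_of_retraction ι ρ hρ hρ1
  have hρι : ∀ r, ρ (ι r) = r := fun r => by simpa [hρ1] using hρ r 1
  rw [isIntegrallyClosed_iff (FractionRing R)]
  intro x hx
  -- the induced map of fraction fields
  let j : FractionRing R →+* FractionRing R' :=
    IsFractionRing.lift (g := (algebraMap R' (FractionRing R')).comp ι)
      ((IsFractionRing.injective R' (FractionRing R')).comp hinj)
  have hj : ∀ r : R, j (algebraMap R (FractionRing R) r) = algebraMap R' (FractionRing R') (ι r) :=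
    fun r => IsFractionRing.lift_algebraMap _ r
  obtain ⟨a, b, hb, rfl⟩ := IsFractionRing.div_surjective (A := R) x
  have hb0 : b ≠ 0 := nonZeroDivisors.ne_zero hb
  -- `j x` is integral over `R'`
  have hjx : IsIntegral R' (j (algebraMap R (FractionRing R) a / algebraMap R (FractionRing R) b)) := by
    obtain ⟨p, hpm, hp⟩ := hx
    refine ⟨p.map ι, hpm.map ι, ?_⟩
    rw [Polynomial.eval₂_map]
    have h1 : (algebraMap R' (FractionRing R')).comp ι = j.comp (algebraMap R (FractionRing R)) := by
      ext r
      exact (hj r).symm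
    rw [h1, ← Polynomial.hom_eval₂, hp, map_zero]
  obtain ⟨z, hz⟩ := (isIntegrallyClosed_iff (FractionRing R')).mp inferInstance hjx
  rw [map_div₀, hj, hj] at hz
  have hιb : algebraMap R' (FractionRing R') (ι b) ≠ 0 := by
    intro h0
    have := (IsFractionRing.injective R' (FractionRing R')) (h0.trans (map_zero _).symm)
    exact hb0 (hinj (this.trans (map_zero ι).symm))
  have hz' : ι b * z = ι a := by
    apply IsFractionRing.injective R' (FractionRing R')
    rw [map_mul, hz, mul_div_cancel₀ _ hιb]
  refine ⟨ρ z, ?_⟩
  have h2 : b * ρ z = a := by rw [← hρ, hz', hρι]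
  rw [eq_div_iff (by
    intro h0
    exact hb0 ((IsFractionRing.injective R (FractionRing R)) (h0.trans (map_zero _).symm))),
    ← map_mul, mul_comm, h2]

/-- **Descent of the Dedekind property** along an integral ring homomorphism `ι : R → R'` admitting
an `R`-linear retraction (e.g. `R' = R ⊗[K] L` for an algebraic field extension `L / K`). -/
theorem isDedekindDomain_of_retraction [IsNoetherianRing R] [IsDedekindDomain R']
    (ι : R →+* R') (hint : ι.IsIntegral) (ρ : R' → R) (hρ : ∀ r z, ρ (ι r * z) = r * ρ z)
    (hρ1 : ρ 1 = 1) : IsDedekindDomain R := by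
  have hinj := injective_of_retraction ι ρ hρ hρ1
  haveI : IsDomain R := hinj.isDomain ι
  haveI : Ring.DimensionLEOne R := dimensionLEOne_of_isIntegral ι hinj hint
  haveI : IsIntegrallyClosed R := isIntegrallyClosed_of_retraction ι ρ hρ hρ1
  exact { toIsDomain := inferInstance
          toIsDedekindRing := { } }

end Descent

section BaseChange

universe u v w

variable (k : Type u) (K : Type v) (A : Type w) [Field k] [Field K] [Algebra k K]
  [CommRing A] [Algebra k A]

/-- The comparison map `K ⊗[k] A → K̄ ⊗[k] A`. -/
noncomputable def toAlgClosure : K ⊗[k] A →ₐ[k] AlgebraicClosure K ⊗[k] A :=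
  Algebra.TensorProduct.map (IsScalarTower.toAlgHom k K (AlgebraicClosure K)) (AlgHom.id k A)

lemma toAlgClosure_tmul (c : K) (a : A) :
    toAlgClosure k K A (c ⊗ₜ[k] a) = algebraMap K (AlgebraicClosure K) c ⊗ₜ[k] a := by
  simp [toAlgClosure]

lemma toAlgClosure_isIntegral : (toAlgClosure k K A).toRingHom.IsIntegral := by
  intro z
  induction z using TensorProduct.induction_on with
  | zero => exact RingHom.isIntegralElem_zero _
  | add x y hx hy => exact RingHom.IsIntegralElem.add _ hx hy
  | tmul l a =>
    have h1 : (toAlgClosure k K A).toRingHom.IsIntegralElem ((1 : AlgebraicClosure K) ⊗ₜ[k] a) := by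
      have : (1 : AlgebraicClosure K) ⊗ₜ[k] a = (toAlgClosure k K A).toRingHom ((1 : K) ⊗ₜ[k] a) := by
        change _ = toAlgClosure k K A ((1 : K) ⊗ₜ[k] a)
        rw [toAlgClosure_tmul, map_one]
      rw [this]
      exact RingHom.isIntegralElem_map _
    have h2 : (toAlgClosure k K A).toRingHom.IsIntegralElem (l ⊗ₜ[k] (1 : A)) := by
      obtain ⟨p, hpm, hp⟩ := (Algebra.IsIntegral.isIntegral (R := K) l)
      refine ⟨p.map (Algebra.TensorProduct.includeLeftRingHom : K →+* K ⊗[k] A), hpm.map _, ?_⟩
      rw [Polynomial.eval₂_map]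
      have hcomp : (toAlgClosure k K A).toRingHom.comp
          (Algebra.TensorProduct.includeLeftRingHom : K →+* K ⊗[k] A) =
          (Algebra.TensorProduct.includeLeftRingHom : AlgebraicClosure K →+* AlgebraicClosure K ⊗[k] A).comp
            (algebraMap K (AlgebraicClosure K)) := by
        ext c
        change toAlgClosure k K A (c ⊗ₜ[k] (1 : A)) = _
        rw [toAlgClosure_tmul]
        rfl
      rw [hcomp]
      have : l ⊗ₜ[k] (1 : A) =
          (Algebra.TensorProduct.includeLeftRingHom : AlgebraicClosure K →+* AlgebraicClosure K ⊗[k] A) l := rfl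
      rw [this, ← Polynomial.hom_eval₂, hp, map_zero]
    have : l ⊗ₜ[k] a = (l ⊗ₜ[k] (1 : A)) * ((1 : AlgebraicClosure K) ⊗ₜ[k] a) := by
      rw [Algebra.TensorProduct.tmul_mul_tmul, mul_one, one_mul]
    rw [this]
    exact RingHom.IsIntegralElem.mul _ h2 h1

/-- **Geometric Dedekindness.**  For `k` algebraically closed, `A` a domain, standard smooth of
relative dimension one over `k`, and `K` any field extension of `k`: `K ⊗[k] A` is a Dedekind
domain. -/
theorem isDedekindDomain_baseChange [IsAlgClosed k] [IsDomain A]
    [Algebra.IsStandardSmoothOfRelativeDimension 1 k A] : IsDedekindDomain (K ⊗[k] A) := by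
  haveI : IsDomain (AlgebraicClosure K ⊗[k] A) :=
    TensorDomain69.isDomain_tensorProduct k (AlgebraicClosure K) A
  haveI : IsDedekindDomain (AlgebraicClosure K ⊗[k] A) :=
    Fermat.Agent.JAC.B2.SmoothAlg37.isDedekindDomain_of_isStandardSmoothOfRelativeDimension_one
      (AlgebraicClosure K)
  haveI : Algebra.IsStandardSmooth K (K ⊗[k] A) :=
    Algebra.IsStandardSmoothOfRelativeDimension.isStandardSmooth 1
  haveI : IsNoetherianRing (K ⊗[k] A) := Algebra.FiniteType.isNoetherianRing K _
  -- a `K`-linear retraction of `K → K̄`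
  obtain ⟨π, hπ⟩ : ∃ π : AlgebraicClosure K →ₗ[K] K,
      π ∘ₗ (Algebra.linearMap K (AlgebraicClosure K)) = LinearMap.id :=
    LinearMap.exists_leftInverse_of_injective _
      (LinearMap.ker_eq_bot.mpr (algebraMap K (AlgebraicClosure K)).injective)
  have hπ1 : π 1 = 1 := by
    have := LinearMap.congr_fun hπ 1
    simpa using this
  let ρ : AlgebraicClosure K ⊗[k] A →ₗ[k] K ⊗[k] A :=
    TensorProduct.map (π.restrictScalars k) LinearMap.id
  have hρ_tmul : ∀ (l : AlgebraicClosure K) (a : A), ρ (l ⊗ₜ[k] a) = π l ⊗ₜ[k] a := fun l a => by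
    simp [ρ]
  refine isDedekindDomain_of_retraction (toAlgClosure k K A).toRingHom
    (toAlgClosure_isIntegral k K A) ρ ?_ ?_
  · intro r z
    change ρ (toAlgClosure k K A r * z) = r * ρ z
    induction r using TensorProduct.induction_on with
    | zero => simp
    | add x y hx hy => rw [map_add, add_mul, map_add, hx, hy, add_mul]
    | tmul c a =>
      induction z using TensorProduct.induction_on with
      | zero => simp
      | add x y hx hy => rw [mul_add, map_add, hx, hy, map_add, mul_add]
      | tmul l a' =>
        rw [toAlgClosure_tmul, Algebra.TensorProduct.tmul_mul_tmul, hρ_tmul, hρ_tmul,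
          Algebra.TensorProduct.tmul_mul_tmul, ← Algebra.smul_def, map_smul, smul_eq_mul]
  · change ρ ((1 : AlgebraicClosure K) ⊗ₜ[k] (1 : A)) = 1
    rw [hρ_tmul, hπ1]
    rfl

end BaseChange

end Fermat.Agent.JAC.Alg.DedekindDescent69
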