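import Mathlib

/-
Fermat/Agent/JAC/Alg/InvertibleLocal98.lean   (helper98, program JAC; cross-package algebra brick)

`Module.Invertible` IS A ZARISKI-LOCAL PROPERTY.

Mathlib (`RingTheory/PicardGroup`) proves that invertible modules are locally free of rank one
(`Module.Invertible.exists_finset_free_localization`) and that localisations of invertible
modules are invertible (`Module.Invertible.of_isLocalization`), but not the converse
local-to-global statement.  This file supplies it, in the three shapes needed by the
JAC programme (A3.2 relative divisors, B1.3 affine dictionary):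

* `invertible_of_localizationSpan'`  : `Ideal.span s = ⊤`, `Mₚ g` a localisation of `M` at
  `g ∈ s` which is invertible over `Rₚ g` for all `g`  ⟹  `Module.Invertible R M`
  (same binder shape as Mathlib's `Module.FinitePresentation.of_localizationSpan'`);
  `invertible_of_localizationSpan` (the `Localization.Away` form),
  `invertible_of_localizationSpan_free'`, `invertible_of_localizationSpan_free`
  (locally free of rank one), `exists_finset_linearEquiv_of_invertible` (converse).
* `invertible_of_isLocalized_maximal`, `invertible_of_localization_maximal`,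
  `invertible_of_localization_maximal_free` : for finitely presented `M`, invertibility can be
  checked at the maximal ideals.
* `ideal_invertible_of_localizationSpan`, `ideal_invertible_of_localizationSpan_principal`:
  an ideal `I` whose extension `I.map (algebraMap R (Rₚ g))` is invertible / principal generated
  by a non-zero-divisor for all `g` in a set spanning the unit ideal is an invertible `R`-module.

Method: `M` is finitely presented (Mathlib), hence `Dual` localises
(`Module.FinitePresentation.isLocalizedModule_mapExtendScalars`), tensor products localise,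
and the localisation of `contractLeft R M` is `contractLeft` over the localised ring
(`map_contractLeft`); bijectivity is local (`bijective_of_isLocalized_span`).
-/

open TensorProduct

namespace Fermat.Agent.JAC.Alg.InvertibleLocal98

section Core

variable {R : Type*} [CommRing R] (S : Submonoid R)
  {M : Type*} [AddCommGroup M] [Module R M]
  (A : Type*) [CommRing A] [Algebra R A] [IsLocalization S A]
  {M' : Type*} [AddCommGroup M'] [Module R M'] [Module A M'] [IsScalarTower R A M']
  (ϕ : M →ₗ[R] M') [IsLocalizedModule S ϕ]

/-- The localisation map on duals. -/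
noncomputable def dualMap : Module.Dual R M →ₗ[R] Module.Dual A M' :=
  IsLocalizedModule.mapExtendScalars S ϕ (Algebra.linearMap R A) A

@[simp]
theorem dualMap_apply (f : Module.Dual R M) (m : M) :
    dualMap S A ϕ f (ϕ m) = algebraMap R A (f m) := by
  simp [dualMap, IsLocalizedModule.mapExtendScalars]

instance isLocalizedModule_dualMap [Module.FinitePresentation R M] :
    IsLocalizedModule S (dualMap S A ϕ) :=
  Module.FinitePresentation.isLocalizedModule_mapExtendScalars S ϕ (Algebra.linearMap R A) A

/-- The localisation map `M^∨ ⊗[R] M → (M')^∨ ⊗[R] M'`. -/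
noncomputable def tensorMap : Module.Dual R M ⊗[R] M →ₗ[R] Module.Dual A M' ⊗[R] M' :=
  TensorProduct.map (dualMap S A ϕ) ϕ

instance isLocalizedModule_tensorMap [Module.FinitePresentation R M] :
    IsLocalizedModule S (tensorMap S A ϕ) := by
  unfold tensorMap
  infer_instance

/-- The contraction over `A`, seen on the tensor product over `R`. -/
noncomputable def contractR : Module.Dual A M' ⊗[R] M' →ₗ[R] A :=
  ((contractLeft A M').restrictScalars R) ∘ₗ
    ((IsLocalization.moduleTensorEquiv S A (Module.Dual A M') M').symm.restrictScalars
      R).toLinearMap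

theorem contractR_tmul (f : Module.Dual A M') (m : M') :
    contractR S A (f ⊗ₜ[R] m) = f m := by
  have := IsLocalization.tensorProduct_compatibleSMul S A (Module.Dual A M') M'
  have h : (IsLocalization.moduleTensorEquiv S A (Module.Dual A M') M').symm (f ⊗ₜ[R] m) =
      f ⊗ₜ[A] m := by
    rw [LinearEquiv.symm_apply_eq]
    rfl
  simp [contractR, h]

theorem contractR_bijective_iff :
    Function.Bijective (contractR S A (M' := M')) ↔ Module.Invertible A M' := by
  have h1 : Function.Bijective (contractR S A (M' := M')) ↔
      Function.Bijective (contractLeft A M') := by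
    unfold contractR
    rw [LinearMap.coe_comp]
    exact Function.Bijective.of_comp_iff _
      ((IsLocalization.moduleTensorEquiv S A (Module.Dual A M') M').symm.restrictScalars
        R).bijective
  rw [h1]
  exact ⟨fun h => ⟨h⟩, fun h => h.bijective⟩

theorem map_contractLeft [Module.FinitePresentation R M] :
    IsLocalizedModule.map S (tensorMap S A ϕ) (Algebra.linearMap R A) (contractLeft R M) =
      contractR S A := by
  apply IsLocalizedModule.linearMap_ext S (tensorMap S A ϕ) (Algebra.linearMap R A)
  rw [IsLocalizedModule.map_comp]
  ext f m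
  simp [tensorMap, contractR_tmul]

theorem map_contractLeft_bijective [Module.FinitePresentation R M]
    [Module.Invertible A M'] :
    Function.Bijective
      (IsLocalizedModule.map S (tensorMap S A ϕ) (Algebra.linearMap R A) (contractLeft R M)) := by
  rw [map_contractLeft]
  exact (contractR_bijective_iff S A).2 inferInstance

end Core

section Span

variable {R : Type*} [CommRing R] {M : Type*} [AddCommGroup M] [Module R M] (s : Set R)

/-- **Invertibility is local on a basic-open cover.** -/
theorem invertible_of_localizationSpan' (hs : Ideal.span s = ⊤)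
    {Mₚ : ∀ (_ : s), Type*} [∀ (g : s), AddCommGroup (Mₚ g)] [∀ (g : s), Module R (Mₚ g)]
    {Rₚ : ∀ (_ : s), Type*} [∀ (g : s), CommRing (Rₚ g)] [∀ (g : s), Algebra R (Rₚ g)]
    [∀ (g : s), IsLocalization.Away g.val (Rₚ g)]
    [∀ (g : s), Module (Rₚ g) (Mₚ g)] [∀ (g : s), IsScalarTower R (Rₚ g) (Mₚ g)]
    (ϕ : ∀ (g : s), M →ₗ[R] Mₚ g) [∀ (g : s), IsLocalizedModule (Submonoid.powers g.val) (ϕ g)]
    (h : ∀ (g : s), Module.Invertible (Rₚ g) (Mₚ g)) :
    Module.Invertible R M := by
  have hfp : Module.FinitePresentation R M :=
    Module.FinitePresentation.of_localizationSpan' s hs ϕ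
      (fun g => by
        have := h g
        exact Module.finitePresentation_of_projective (Rₚ g) (Mₚ g))
  refine ⟨bijective_of_isLocalized_span s hs
    (fun g => Module.Dual (Rₚ g) (Mₚ g) ⊗[R] Mₚ g)
    (fun g => tensorMap (Submonoid.powers g.val) (Rₚ g) (ϕ g))
    (fun g => Rₚ g) (fun g => Algebra.linearMap R (Rₚ g)) (contractLeft R M) (fun g => ?_)⟩
  have := h g
  exact map_contractLeft_bijective (Submonoid.powers g.val) (Rₚ g) (ϕ g)

/-- Invertibility is local on a basic-open cover, `Localization.Away` form. -/
theorem invertible_of_localizationSpan (hs : Ideal.span s = ⊤)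
    (h : ∀ g : s, Module.Invertible (Localization.Away g.1) (LocalizedModule.Away g.1 M)) :
    Module.Invertible R M :=
  invertible_of_localizationSpan' s hs
    (fun g => LocalizedModule.mkLinearMap (Submonoid.powers g.1) M) h

/-- A module which is free of rank one on a basic-open cover is invertible. -/
theorem invertible_of_localizationSpan_free' (hs : Ideal.span s = ⊤)
    {Mₚ : ∀ (_ : s), Type*} [∀ (g : s), AddCommGroup (Mₚ g)] [∀ (g : s), Module R (Mₚ g)]
    {Rₚ : ∀ (_ : s), Type*} [∀ (g : s), CommRing (Rₚ g)] [∀ (g : s), Algebra R (Rₚ g)]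
    [∀ (g : s), IsLocalization.Away g.val (Rₚ g)]
    [∀ (g : s), Module (Rₚ g) (Mₚ g)] [∀ (g : s), IsScalarTower R (Rₚ g) (Mₚ g)]
    (ϕ : ∀ (g : s), M →ₗ[R] Mₚ g) [∀ (g : s), IsLocalizedModule (Submonoid.powers g.val) (ϕ g)]
    (h : ∀ (g : s), Nonempty (Mₚ g ≃ₗ[Rₚ g] Rₚ g)) :
    Module.Invertible R M :=
  invertible_of_localizationSpan' s hs ϕ fun g =>
    Module.Invertible.congr (h g).some.symm

/-- A module which is free of rank one on a basic-open cover is invertible,
`Localization.Away` form. -/
theorem invertible_of_localizationSpan_free (hs : Ideal.span s = ⊤)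
    (h : ∀ g : s, Nonempty
      (LocalizedModule.Away g.1 M ≃ₗ[Localization.Away g.1] Localization.Away g.1)) :
    Module.Invertible R M :=
  invertible_of_localizationSpan_free' s hs
    (fun g => LocalizedModule.mkLinearMap (Submonoid.powers g.1) M) h

/-- Converse: an invertible module is free of rank one on a finite basic-open cover
(repackaging of Mathlib's `Module.Invertible.exists_finset_free_localization`). -/
theorem exists_finset_linearEquiv_of_invertible [Module.Invertible R M] :
    ∃ t : Finset R, Ideal.span (t : Set R) = ⊤ ∧ ∀ r ∈ t, Nonempty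
      (LocalizedModule.Away r M ≃ₗ[Localization.Away r] Localization.Away r) := by
  obtain ⟨t, ht, h⟩ := Module.Invertible.exists_finset_free_localization R M
  refine ⟨t, ht, fun r hr => ?_⟩
  have := h r hr
  exact Module.Invertible.free_iff_linearEquiv.1 this

end Span

section Maximal

variable {R : Type*} [CommRing R] {M : Type*} [AddCommGroup M] [Module R M]

/-- A finitely presented module whose localisations at all maximal ideals are invertible
is invertible (general `IsLocalizedModule` form). -/
theorem invertible_of_isLocalized_maximal [Module.FinitePresentation R M]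
    (Rₚ : ∀ (P : Ideal R) [P.IsMaximal], Type*)
    [∀ (P : Ideal R) [P.IsMaximal], CommRing (Rₚ P)]
    [∀ (P : Ideal R) [P.IsMaximal], Algebra R (Rₚ P)]
    [∀ (P : Ideal R) [P.IsMaximal], IsLocalization.AtPrime (Rₚ P) P]
    (Mₚ : ∀ (P : Ideal R) [P.IsMaximal], Type*)
    [∀ (P : Ideal R) [P.IsMaximal], AddCommGroup (Mₚ P)]
    [∀ (P : Ideal R) [P.IsMaximal], Module R (Mₚ P)]
    [∀ (P : Ideal R) [P.IsMaximal], Module (Rₚ P) (Mₚ P)]
    [∀ (P : Ideal R) [P.IsMaximal], IsScalarTower R (Rₚ P) (Mₚ P)]
    (f : ∀ (P : Ideal R) [P.IsMaximal], M →ₗ[R] Mₚ P)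
    [∀ (P : Ideal R) [P.IsMaximal], IsLocalizedModule.AtPrime P (f P)]
    (h : ∀ (P : Ideal R) [P.IsMaximal], Module.Invertible (Rₚ P) (Mₚ P)) :
    Module.Invertible R M := by
  refine ⟨bijective_of_isLocalized_maximal
    (fun P _ => Module.Dual (Rₚ P) (Mₚ P) ⊗[R] Mₚ P)
    (fun P _ => tensorMap P.primeCompl (Rₚ P) (f P))
    (fun P _ => Rₚ P) (fun P _ => Algebra.linearMap R (Rₚ P)) (contractLeft R M)
    (fun P _ => ?_)⟩
  have := h P
  exact map_contractLeft_bijective P.primeCompl (Rₚ P) (f P)

/-- A finitely presented module whose localisations at all maximal ideals are invertible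
is invertible. -/
theorem invertible_of_localization_maximal [Module.FinitePresentation R M]
    (h : ∀ (P : Ideal R) [P.IsMaximal],
      Module.Invertible (Localization.AtPrime P) (LocalizedModule.AtPrime P M)) :
    Module.Invertible R M :=
  invertible_of_isLocalized_maximal (fun P _ => Localization.AtPrime P)
    (fun P _ => LocalizedModule.AtPrime P M)
    (fun P _ => LocalizedModule.mkLinearMap P.primeCompl M) h

/-- A finitely presented module which is free of rank one at all maximal ideals is invertible. -/
theorem invertible_of_localization_maximal_free [Module.FinitePresentation R M]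
    (h : ∀ (P : Ideal R) [P.IsMaximal], Nonempty
      (LocalizedModule.AtPrime P M ≃ₗ[Localization.AtPrime P] Localization.AtPrime P)) :
    Module.Invertible R M :=
  invertible_of_localization_maximal fun P _ => Module.Invertible.congr (h P).some.symm

end Maximal

section IdealForm

variable {R : Type*} [CommRing R]

/-- A principal ideal generated by a non-zero-divisor is free of rank one. -/
theorem nonempty_linearEquiv_of_eq_span_singleton {A : Type*} [CommRing A] (J : Ideal A) (x : A)
    (hx : x ∈ nonZeroDivisors A) (h : J = Ideal.span {x}) : Nonempty (J ≃ₗ[A] A) := by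
  subst h
  have hmem : ∀ a : A, a * x ∈ Ideal.span {x} := fun a =>
    Ideal.mem_span_singleton'.2 ⟨a, rfl⟩
  let f : A →ₗ[A] (Ideal.span {x} : Ideal A) :=
    { toFun := fun a => ⟨a * x, hmem a⟩
      map_add' := fun a b => by ext; simp [add_mul]
      map_smul' := fun c a => by ext; simp [mul_assoc] }
  have hf : Function.Bijective f := by
    constructor
    · intro a b hab
      have h1 : a * x = b * x := congrArg Subtype.val hab
      exact (mul_cancel_right_mem_nonZeroDivisors hx).1 h1
    · rintro ⟨y, hy⟩
      obtain ⟨a, rfl⟩ := Ideal.mem_span_singleton'.1 hy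
      exact ⟨a, rfl⟩
  exact ⟨(LinearEquiv.ofBijective f hf).symm⟩

variable (s : Set R)

/-- An ideal whose extensions to a basic-open cover are invertible modules is an invertible
module. -/
theorem ideal_invertible_of_localizationSpan (hs : Ideal.span s = ⊤) (I : Ideal R)
    {Rₚ : ∀ (_ : s), Type*} [∀ (g : s), CommRing (Rₚ g)] [∀ (g : s), Algebra R (Rₚ g)]
    [∀ (g : s), IsLocalization.Away g.val (Rₚ g)]
    (h : ∀ g : s, Module.Invertible (Rₚ g) (I.map (algebraMap R (Rₚ g)))) :
    Module.Invertible R I := by
  refine invertible_of_localizationSpan' s hs (Rₚ := Rₚ)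
    (Mₚ := fun g => I.localized' (Rₚ g) (Submonoid.powers g.val) (Algebra.linearMap R (Rₚ g)))
    (fun g => I.toLocalized' (Rₚ g) (Submonoid.powers g.val) (Algebra.linearMap R (Rₚ g)))
    (fun g => ?_)
  have := h g
  exact Module.Invertible.congr
    (LinearEquiv.ofEq _ _ (Ideal.localized'_eq_map (Rₚ g) (Submonoid.powers g.val) I).symm)

/-- An ideal which is, on a basic-open cover, principal generated by a non-zero-divisor is an
invertible module. -/
theorem ideal_invertible_of_localizationSpan_principal (hs : Ideal.span s = ⊤) (I : Ideal R)
    {Rₚ : ∀ (_ : s), Type*} [∀ (g : s), CommRing (Rₚ g)] [∀ (g : s), Algebra R (Rₚ g)]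
    [∀ (g : s), IsLocalization.Away g.val (Rₚ g)]
    (h : ∀ g : s, ∃ x ∈ nonZeroDivisors (Rₚ g),
      I.map (algebraMap R (Rₚ g)) = Ideal.span {x}) :
    Module.Invertible R I :=
  ideal_invertible_of_localizationSpan s hs I fun g => by
    obtain ⟨x, hx, hI⟩ := h g
    exact Module.Invertible.congr (nonempty_linearEquiv_of_eq_span_singleton _ x hx hI).some.symm

end IdealForm

end Fermat.Agent.JAC.Alg.InvertibleLocal98
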