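/-
Programme JAC, cross-package algebra brick G2' (helper69, requested by helper37 in report #528).

`K ⊗[k] A` is a Dedekind domain as soon as `A` is a finite type `k`-domain which is, locally on
`Spec A`, standard smooth of relative dimension one (`k` algebraically closed, `K/k` any field
extension).
-/
import Mathlib
import Fermat.Agent.JAC.Alg.DedekindDescent69
import Fermat.Agent.JAC.B2.Charts37

set_option autoImplicit false
set_option linter.style.haveILetI false

open TensorProduct

namespace Fermat.Agent.JAC.Alg.DedekindCover69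

universe u v w w'

/-- Transport `IsLocalization.AtPrime` along an equality of prime ideals. -/
lemma isLocalization_atPrime_congr {R T : Type*} [CommSemiring R] [CommSemiring T] [Algebra R T]
    {p q : Ideal R} [p.IsPrime] [hq : q.IsPrime] (h : p = q)
    (H : IsLocalization.AtPrime T p) : IsLocalization.AtPrime T q := by
  subst h
  exact H

/-- One principal open piece: if `Ag = A[1/g]` is standard smooth of relative dimension one over
the algebraically closed field `k` and `M` is a prime of `K ⊗[k] A` not containing `1 ⊗ g`, then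
the localization of `K ⊗[k] A` at `M` has a Dedekind model. -/
theorem exists_dedekind_localization_of_away (k : Type u) (K : Type v) (A : Type w)
    [Field k] [IsAlgClosed k] [Field K] [Algebra k K] [CommRing A] [IsDomain A] [Algebra k A]
    (g : A) (Ag : Type w') [CommRing Ag] [IsDomain Ag] [Algebra A Ag] [Algebra k Ag]
    [IsScalarTower k A Ag] [IsLocalization.Away g Ag]
    [Algebra.IsStandardSmoothOfRelativeDimension 1 k Ag]
    (M : Ideal (K ⊗[k] A)) [hM : M.IsPrime] (hg : (1 : K) ⊗ₜ[k] g ∉ M) :
    ∃ (T : Type (max v w')) (_ : CommRing T) (_ : Algebra (K ⊗[k] A) T)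
      (_ : IsLocalization.AtPrime T M), IsDedekindDomain T := by
  letI : Algebra (K ⊗[k] A) (K ⊗[k] Ag) :=
    (Algebra.TensorProduct.map (AlgHom.id k K) (IsScalarTower.toAlgHom k A Ag)).toAlgebra
  haveI : IsScalarTower K (K ⊗[k] A) (K ⊗[k] Ag) :=
    .of_algebraMap_eq <| by intro; simp [RingHom.algebraMap_toAlgebra]
  set N : Submonoid (K ⊗[k] A) :=
    (Submonoid.powers g).map (Algebra.TensorProduct.includeRight (R := k) (A := K)) with hN
  haveI hloc : IsLocalization N (K ⊗[k] Ag) :=
    IsLocalization.tensorProduct_tensorProduct_right k K (.powers g) Ag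
      (by ext; simp [RingHom.algebraMap_toAlgebra])
  haveI : IsDedekindDomain (K ⊗[k] Ag) :=
    DedekindDescent69.isDedekindDomain_baseChange k K Ag
  -- `M` is disjoint from `N`
  have hdisj : Disjoint (N : Set (K ⊗[k] A)) (M : Set (K ⊗[k] A)) := by
    rw [Set.disjoint_left]
    rintro x ⟨y, ⟨n, rfl⟩, rfl⟩ hxM
    apply hg
    have : (Algebra.TensorProduct.includeRight (R := k) (A := K)) (g ^ n) =
        ((1 : K) ⊗ₜ[k] g) ^ n := by
      simp [Algebra.TensorProduct.tmul_pow]
    rw [SetLike.mem_coe, this] at hxM
    exact hM.mem_of_pow_mem n hxM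
  set P' : Ideal (K ⊗[k] Ag) := Ideal.map (algebraMap (K ⊗[k] A) (K ⊗[k] Ag)) M with hP'
  haveI hP'prime : P'.IsPrime := IsLocalization.isPrime_of_isPrime_disjoint N _ M hM hdisj
  have hcomap : P'.comap (algebraMap (K ⊗[k] A) (K ⊗[k] Ag)) = M :=
    IsLocalization.under_map_of_isPrime_disjoint N _ hM hdisj
  haveI : IsScalarTower (K ⊗[k] A) (K ⊗[k] Ag) (Localization.AtPrime P') := inferInstance
  have hT := IsLocalization.isLocalization_isLocalization_atPrime_isLocalization N
    (S := K ⊗[k] Ag) (Localization.AtPrime P') P'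
  exact ⟨Localization.AtPrime P', inferInstance, inferInstance,
    isLocalization_atPrime_congr hcomap hT, inferInstance⟩

/-- **Geometric Dedekindness from a smooth cover** (helper37's request G2').  `k` algebraically
closed, `K/k` any field extension, `A` a finite type `k`-domain such that every maximal ideal has
a principal open neighbourhood `D(g)` with `A[1/g]` standard smooth of relative dimension one
over `k`.  Then `K ⊗[k] A` is a Dedekind domain. -/
theorem isDedekindDomain_baseChange_of_cover (k : Type u) (K : Type v) (A : Type w)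
    [Field k] [IsAlgClosed k] [Field K] [Algebra k K] [CommRing A] [IsDomain A] [Algebra k A]
    [Algebra.FiniteType k A]
    (h : ∀ (m : Ideal A) [m.IsMaximal], ∃ g ∉ m, ∃ (Ag : Type w') (_ : CommRing Ag)
      (_ : Algebra A Ag) (_ : Algebra k Ag) (_ : IsScalarTower k A Ag)
      (_ : IsLocalization.Away g Ag), Algebra.IsStandardSmoothOfRelativeDimension 1 k Ag) :
    IsDedekindDomain (K ⊗[k] A) := by
  haveI : IsDomain (K ⊗[k] A) := TensorDomain69.isDomain_baseChange k K A
  haveI : IsNoetherianRing (K ⊗[k] A) := Algebra.FiniteType.isNoetherianRing K _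
  refine Fermat.Agent.JAC.B2.Charts37.isDedekindDomain_of_forall_localization
    (R := K ⊗[k] A) fun M hM => ?_
  haveI hMp : M.IsPrime := hM.isPrime
  -- the contraction of `M` to `A`
  set p : Ideal A := M.comap (Algebra.TensorProduct.includeRight (R := k) (A := K)).toRingHom
    with hp
  have hp_ne : p ≠ ⊤ := (Ideal.comap_isPrime _ M).ne_top
  obtain ⟨m, hm, hpm⟩ := Ideal.exists_le_maximal p hp_ne
  obtain ⟨g, hgm, Ag, _, _, _, _, _, hsm⟩ := h m
  have hg0 : g ≠ 0 := fun h0 => hgm (h0 ▸ m.zero_mem)
  haveI : IsDomain Ag :=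
    IsLocalization.isDomain_of_le_nonZeroDivisors (M := Submonoid.powers g) Ag
      (powers_le_nonZeroDivisors_of_noZeroDivisors hg0)
  have hgM : (1 : K) ⊗ₜ[k] g ∉ M := fun hmem => hgm (hpm hmem)
  exact exists_dedekind_localization_of_away k K A g Ag M hgM

end Fermat.Agent.JAC.Alg.DedekindCover69
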